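import Mathlib.MeasureTheory.Constructions.Polish.Basic

/-!
# A topology making countably many Borel maps continuous

Countably many Borel maps of a Polish space into itself are all continuous for one finer Polish
topology, which has the same Borel sets.
-/

set_option autoImplicit false

universe u

namespace FA.GlimmEffros

open Set Topology TopologicalSpace MeasureTheory

/-- One refinement: the maps become continuous into the given topology. -/
theorem exists_finer_topology {X : Type u} (τ : TopologicalSpace X) (hτ : @PolishSpace X τ)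
    (σ : ℕ → X → X) (hσ : ∀ k, @Measurable X X (@borel X τ) (@borel X τ) (σ k)) :
    ∃ τ' : TopologicalSpace X, τ' ≤ τ ∧ @PolishSpace X τ' ∧
      ∀ k, @Continuous X X τ' τ (σ k) := by
  let := τ
  let : MeasurableSpace X := borel X
  have : BorelSpace X := ⟨rfl⟩
  choose t ht htc htP using fun k => (hσ k).exists_continuous
  obtain ⟨τ', hτ', hle, hP⟩ := PolishSpace.exists_polishSpace_forall_le t ht htP
  exact ⟨τ', hle, hP, fun k => continuous_le_dom (hτ' k) (htc k)⟩

/-- **A finer Polish topology with the same Borel sets makes Borel maps continuous.** -/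
theorem exists_polish_topology {X : Type u} [t : TopologicalSpace X] [PolishSpace X]
    [MeasurableSpace X] [BorelSpace X] (σ : ℕ → X → X) (hσ : ∀ k, Measurable (σ k)) :
    ∃ τ : TopologicalSpace X, τ ≤ t ∧ @PolishSpace X τ ∧ @BorelSpace X τ ‹MeasurableSpace X› ∧
      ∀ k, @Continuous X X τ τ (σ k) := by
  classical
  let Good := {τ : TopologicalSpace X // τ ≤ t ∧ @PolishSpace X τ}
  have hborel : ∀ τ : Good, ‹MeasurableSpace X› = @borel X τ.1 := fun τ =>
    BorelSpace.measurable_eq.trans (borel_eq_borel_of_le τ.2.2 ‹PolishSpace X› τ.2.1).symm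
  have hstep : ∀ τ : Good, ∃ τ' : Good, τ'.1 ≤ τ.1 ∧ ∀ k, @Continuous X X τ'.1 τ.1 (σ k) := by
    intro τ
    obtain ⟨τ', hle, hP, hc⟩ := exists_finer_topology τ.1 τ.2.2 σ fun k => hborel τ ▸ hσ k
    exact ⟨⟨τ', hle.trans τ.2.1, hP⟩, hle, hc⟩
  choose next hnext hcont using hstep
  let seq : ℕ → Good := fun n => Nat.rec ⟨t, le_rfl, ‹_›⟩ (fun _ τ => next τ) n
  have hle : ∀ n, (seq n).1 ≤ t := fun n => (seq n).2.1
  have hP : @PolishSpace X (⨅ n, (seq n).1) := .iInf ⟨0, hle⟩ fun n => (seq n).2.2
  have hinf : (⨅ n, (seq n).1) ≤ t := iInf_le (fun n => (seq n).1) 0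
  refine ⟨_, hinf, hP, @BorelSpace.mk X (⨅ n, (seq n).1) _ (hborel ⟨_, hinf, hP⟩), fun k =>
    continuous_iInf_rng.2 fun n => continuous_iInf_dom (i := n + 1) (hcont (seq n) k)⟩

end FA.GlimmEffros
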