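import Fermat.Agent.GlimmEffros.Scheme
import Fermat.Agent.GlimmEffros.Topology

/-!
# The dichotomy of Glimm and Effros for countable classes

When the closures of the orbits separate them the relation is smooth. Otherwise two orbits share
a closure, which is then perfect with a dense orbit and receives eventual agreement.
-/

set_option autoImplicit false

universe u

namespace FA.GlimmEffros

open Set Topology MeasureTheory TopologicalSpace FA.BorelCombinatorics

variable {X : Type u} [TopologicalSpace X] [PolishSpace X] [MeasurableSpace X] [BorelSpace X]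

/-- The dichotomy for continuous involutions. -/
theorem isSmooth_or_embedding_of_continuous (s : Setoid X) (σ : ℕ → X → X)
    (hσc : ∀ k, Continuous (σ k)) (hσi : ∀ k, Function.Involutive (σ k))
    (hσ : ∀ x y, s x y ↔ ∃ k, σ k x = y) :
    IsSmooth s ∨ ∃ f : (ℕ → Bool) → X, Continuous f ∧ Function.Injective f ∧
      ∀ z z', eZero z z' ↔ s (f z) (f z') := by
  classical
  rcases isEmpty_or_nonempty X with hX | ⟨⟨x₀⟩⟩
  · exact .inl ⟨fun _ _ => false, measurable_const, fun x => isEmptyElim x⟩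
  obtain ⟨b, hbc, -, hb⟩ := exists_countable_basis X
  obtain ⟨B, hB⟩ := hbc.exists_eq_range
    (let ⟨t, ht, _⟩ := hb.exists_subset_of_mem_open (mem_univ x₀) isOpen_univ; ⟨t, ht⟩)
  let inv : X → ℕ → Bool := fun x n => decide (∃ k, σ k x ∈ B n)
  have hinvm : Measurable inv := measurable_pi_lambda _ fun n => measurable_to_bool <| by
    have e : (fun x => inv x n) ⁻¹' {true} = ⋃ k, σ k ⁻¹' B n := by
      ext x
      simp [inv]
    rw [e]
    exact (isOpen_iUnion fun k =>
      (hb.isOpen (hB ▸ mem_range_self n)).preimage (hσc k)).measurableSet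
  by_cases hsep : ∀ x y, inv x = inv y → s x y
  · refine .inl ⟨inv, hinvm, fun x y => ⟨fun hxy => funext fun n => ?_, hsep x y⟩⟩
    refine decide_eq_decide.2 ⟨fun ⟨k, hk⟩ => ?_, fun ⟨k, hk⟩ => ?_⟩
    · obtain ⟨j, hj⟩ := (hσ y (σ k x)).1 (s.trans (s.symm hxy) ((hσ _ _).2 ⟨k, rfl⟩))
      exact ⟨j, hj ▸ hk⟩
    · obtain ⟨j, hj⟩ := (hσ x (σ k y)).1 (s.trans hxy ((hσ _ _).2 ⟨k, rfl⟩))
      exact ⟨j, hj ▸ hk⟩
  push Not at hsep
  obtain ⟨x, y, hxy, hns⟩ := hsep
  let orb : X → Set X := fun z => range fun k => σ k z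
  have hcl : ∀ z z', inv z = inv z' → orb z ⊆ closure (orb z') := fun z z' he => by
    rintro _ ⟨k, rfl⟩
    refine hb.mem_closure_iff.2 fun o ho hmem => ?_
    obtain ⟨n, rfl⟩ := hB ▸ ho
    obtain ⟨j, hj⟩ := decide_eq_true_iff.1 ((congrFun he n).symm.trans
      (decide_eq_true (show ∃ k, σ k z ∈ B n from ⟨k, hmem⟩)))
    exact ⟨_, hj, j, rfl⟩
  let F : Set X := closure (orb x)
  have : PolishSpace F := isClosed_closure.polishSpace
  have hperf : ∀ a : F, ¬IsOpen ({a} : Set F) := fun a ha => by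
    obtain ⟨U, hU, hUa⟩ := isOpen_induced_iff.1 ha
    have haU : a.1 ∈ U := hUa.ge rfl
    have honly : ∀ w ∈ U, w ∈ F → w = a.1 := fun w hw hwF =>
      congrArg Subtype.val (mem_singleton_iff.1 (hUa.le (show (⟨w, hwF⟩ : F) ∈ _ from hw)))
    obtain ⟨_, hw, i, rfl⟩ := mem_closure_iff.1 a.2 U hU haU
    have hxa := honly _ hw (subset_closure ⟨i, rfl⟩)
    have hay : a.1 ∈ closure (orb y) := hxa ▸ hcl x y hxy ⟨i, rfl⟩
    obtain ⟨_, hw', j, rfl⟩ := mem_closure_iff.1 hay U hU haU
    have hya := honly _ hw' (hcl y x hxy.symm ⟨j, rfl⟩)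
    exact hns (s.trans ((hσ _ _).2 ⟨i, hxa⟩) (s.symm ((hσ _ _).2 ⟨j, hya⟩)))
  have hmaps : ∀ k, MapsTo (σ k) F F := fun k => by
    refine MapsTo.closure ?_ (hσc k)
    rintro _ ⟨i, rfl⟩
    exact (hσ _ _).1 (s.trans ((hσ _ _).2 ⟨i, rfl⟩) ((hσ _ _).2 ⟨k, rfl⟩))
  let ρ : ℕ → F ≃ₜ F := fun k => match k with
    | 0 => Homeomorph.refl F
    | k + 1 =>
      { toFun := (hmaps k).restrict
        invFun := (hmaps k).restrict
        left_inv := fun a => Subtype.ext (hσi k a.1)
        right_inv := fun a => Subtype.ext (hσi k a.1)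
        continuous_toFun := (hσc k).restrict (hmaps k)
        continuous_invFun := (hσc k).restrict (hmaps k) }
  obtain ⟨k₀, hk₀⟩ := (hσ x x).1 (s.refl x)
  have hsY : ∀ a c : F, Setoid.comap Subtype.val s a c ↔ ∃ k, ρ k a = c := fun a c => by
    refine ⟨fun h => ?_, fun ⟨k, hk⟩ => ?_⟩
    · obtain ⟨k, hk⟩ := (hσ _ _).1 h
      exact ⟨k + 1, Subtype.ext hk⟩
    · rcases k with _ | k
      · exact hk ▸ s.refl _
      · exact (hσ _ _).2 ⟨k, congrArg Subtype.val hk⟩
  have hdense : Dense (range fun k => ρ k ⟨x, subset_closure ⟨k₀, hk₀⟩⟩) := by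
    refine Subtype.dense_iff.2 (closure_mono ?_)
    rintro _ ⟨k, rfl⟩
    exact ⟨_, ⟨k + 1, rfl⟩, rfl⟩
  obtain ⟨f, hf, hfi, hfs⟩ :=
    exists_eZero_embedding (Setoid.comap Subtype.val s) ρ (fun _ => rfl) hsY hperf _ hdense
  exact .inr ⟨fun z => (f z).1, continuous_subtype_val.comp hf,
    Subtype.val_injective.comp hfi, hfs⟩

/-- **Glimm and Effros.** A countable Borel equivalence relation is smooth or eventual agreement
embeds into it continuously. -/
theorem isSmooth_or_embedding (s : Setoid X) (hs : MeasurableSet {p : X × X | s p.1 p.2})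
    (hcount : ∀ x, {y | s x y}.Countable) :
    IsSmooth s ∨ ∃ f : (ℕ → Bool) → X, Continuous f ∧ Function.Injective f ∧
      ∀ z z', eZero z z' ↔ s (f z) (f z') := by
  obtain ⟨σ, hσm, hσi, hσ⟩ := FA.Selection.exists_borel_involutions s hs hcount
  obtain ⟨τ, hle, hP, hB, hc⟩ := exists_polish_topology σ hσm
  exact (@isSmooth_or_embedding_of_continuous X τ hP _ hB s σ hc hσi hσ).imp_right
    fun ⟨f, hf, h⟩ => ⟨f, continuous_le_rng hle hf, h⟩

omit [TopologicalSpace X] [PolishSpace X] [BorelSpace X] in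
/-- A smooth relation receives no Borel reduction of eventual agreement. -/
theorem not_isSmooth_of_reduction {s : Setoid X} {f : (ℕ → Bool) → X} (hf : Measurable f)
    (h : ∀ z z', eZero z z' ↔ s (f z) (f z')) : ¬IsSmooth s := fun ⟨g, hg, hgs⟩ =>
  not_isSmooth_eZero ⟨g ∘ f, hg.comp hf, fun z z' => (h z z').trans (hgs _ _)⟩

end FA.GlimmEffros
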