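import Fermat.Agent.BorelCombinatorics.EZero
import Mathlib.Topology.Homeomorph.Lemmas

/-!
# Embedding eventual agreement into an orbit relation

Countably many homeomorphisms of a perfect Polish space with a dense orbit admit a Cantor scheme
whose branches are related exactly when they agree from some index on.
-/

set_option autoImplicit false

universe u

namespace FA.GlimmEffros

open Set Topology Filter FA.BorelCombinatorics

/-- The coordinates below `n`. -/
def prefixWord (z : ℕ → Bool) (n : ℕ) : Fin n → Bool :=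
  fun i => z i

theorem init_prefixWord (z : ℕ → Bool) (n : ℕ) :
    Fin.init (prefixWord z (n + 1)) = prefixWord z n :=
  rfl

variable {Y : Type u}

/-- The pairs avoiding finitely many graphs of homeomorphisms of a perfect space form a dense
open set. -/
theorem isOpen_dense_avoid [TopologicalSpace Y] [T2Space Y] (hperf : ∀ a : Y, ¬IsOpen ({a} : Set Y))
    (G : Finset (Y ≃ₜ Y)) :
    IsOpen {p : Y × Y | ∀ g ∈ G, g p.1 ≠ p.2} ∧ Dense {p : Y × Y | ∀ g ∈ G, g p.1 ≠ p.2} := by
  classical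
  induction G using Finset.induction_on with
  | empty => simp [dense_univ]
  | insert g G _ ih =>
    have e : {p : Y × Y | ∀ h ∈ insert g G, h p.1 ≠ p.2} =
        {p : Y × Y | g p.1 ≠ p.2} ∩ {p : Y × Y | ∀ h ∈ G, h p.1 ≠ p.2} := by
      ext p
      simp
    have ho : IsOpen {p : Y × Y | g p.1 ≠ p.2} :=
      isOpen_ne_fun (g.continuous.comp continuous_fst) continuous_snd
    rw [e]
    refine ⟨ho.inter ih.1, Dense.inter_of_isOpen_left (dense_iff_inter_open.2 ?_) ih.2 ho⟩
    rintro U hU ⟨⟨a, b⟩, hab⟩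
    obtain ⟨A, B, -, hB, haA, hbB, hsub⟩ := isOpen_prod_iff.1 hU a b hab
    obtain ⟨c, hc, hne⟩ : ∃ c ∈ B, g a ≠ c := by
      by_contra! hall
      exact hperf b (subset_antisymm (singleton_subset_iff.2 hbB) (fun c hc =>
        mem_singleton_iff.2 ((hall c hc).symm.trans (hall b hbB))) ▸ hB)
    exact ⟨(a, c), hsub ⟨haA, hc⟩, hne⟩

section Stages

variable [MetricSpace Y] (s : Setoid Y) (ρ : ℕ → Y ≃ₜ Y)

/-- A level of the scheme: a nonempty open set and, for each word, a homeomorphism which moves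
points within their classes. -/
structure Stage (n : ℕ) where
  U : Set Y
  isOpen : IsOpen U
  nonempty : U.Nonempty
  map : (Fin n → Bool) → Y ≃ₜ Y
  orbit : ∀ w a, s a (map w a)

variable {s}

/-- The conditions on the next level. -/
def Step {n : ℕ} (S : Stage s n) (S' : Stage s (n + 1)) : Prop :=
  (∀ w, S'.map w '' closure S'.U ⊆ S.map (Fin.init w) '' S.U) ∧
    (∀ w, ∀ a ∈ S'.U, ∀ a' ∈ S'.U, dist (S'.map w a) (S'.map w a') ≤ (1 / 2 : ℝ) ^ n) ∧
    (∀ w w', w (Fin.last n) ≠ w' (Fin.last n) → ∀ a ∈ S'.U, ∀ a' ∈ S'.U, ∀ k ≤ n,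
      ρ k (S'.map w a) ≠ S'.map w' a') ∧
    ∀ w w', w (Fin.last n) = w' (Fin.last n) → ∀ a, ∃ b,
      S'.map w a = S.map (Fin.init w) b ∧ S'.map w' a = S.map (Fin.init w') b

variable {ρ}

/-- **The next level exists.** -/
theorem exists_step (hperf : ∀ a : Y, ¬IsOpen ({a} : Set Y)) (hρ : ∀ k a, s a (ρ k a))
    (htrans : ∀ A B : Set Y, IsOpen A → A.Nonempty → IsOpen B → B.Nonempty →
      ∃ k, ∃ a ∈ A, ρ k a ∈ B)
    {n : ℕ} (S : Stage s n) : ∃ S' : Stage s (n + 1), Step ρ S S' := by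
  classical
  let G : Finset (Y ≃ₜ Y) := Finset.univ.image fun e : Fin (n + 1) × (Fin n → Bool) ×
      (Fin n → Bool) × Bool =>
    bif e.2.2.2 then (((S.map e.2.1).trans (ρ e.1)).trans (S.map e.2.2.1).symm).symm
    else ((S.map e.2.1).trans (ρ e.1)).trans (S.map e.2.2.1).symm
  obtain ⟨hWo, hWd⟩ := isOpen_dense_avoid hperf G
  obtain ⟨⟨a, b⟩, hab, habW⟩ :=
    hWd.inter_open_nonempty _ (S.isOpen.prod S.isOpen) (S.nonempty.prod S.nonempty)
  obtain ⟨A, B, hA, hB, haA, hbB, hAB⟩ :=
    isOpen_prod_iff.1 ((S.isOpen.prod S.isOpen).inter hWo) a b ⟨hab, habW⟩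
  obtain ⟨k, c, hcA, hcB⟩ := htrans A B hA ⟨a, haA⟩ hB ⟨b, hbB⟩
  let map : (Fin (n + 1) → Bool) → Y ≃ₜ Y := fun w =>
    bif w (Fin.last n) then (ρ k).trans (S.map (Fin.init w)) else S.map (Fin.init w)
  have hO : IsOpen (A ∩ ρ k ⁻¹' B ∩
      ⋂ w, {p | dist (map w p) (map w c) < (1 / 2 : ℝ) ^ (n + 1)}) :=
    (hA.inter (hB.preimage (ρ k).continuous)).inter (isOpen_iInter_of_finite fun w =>
      isOpen_lt ((map w).continuous.dist continuous_const) continuous_const)
  obtain ⟨r, hr, hball⟩ := Metric.isOpen_iff.1 hO c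
    ⟨⟨hcA, hcB⟩, mem_iInter.2 fun w => by simp⟩
  let U := Metric.ball c (r / 2)
  have hclU : closure U ⊆ A ∩ ρ k ⁻¹' B ∩
      ⋂ w, {p | dist (map w p) (map w c) < (1 / 2 : ℝ) ^ (n + 1)} :=
    (Metric.closure_ball_subset_closedBall.trans
      (Metric.closedBall_subset_ball (by linarith))).trans hball
  have horbit : ∀ w p, s p (map w p) := fun w p => by
    simp only [map]
    cases w (Fin.last n)
    exacts [S.orbit _ p, s.trans (hρ k p) (S.orbit _ _)]
  let S' : Stage s (n + 1) :=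
    ⟨U, Metric.isOpen_ball, ⟨c, Metric.mem_ball_self (by linarith)⟩, map, horbit⟩
  have hnot : ∀ w, w (Fin.last n) = false → ∀ p, map w p = S.map (Fin.init w) p := fun w hw p => by
    simp [map, hw]
  have hset : ∀ w, w (Fin.last n) = true → ∀ p, map w p = S.map (Fin.init w) (ρ k p) :=
    fun w hw p => by simp [map, hw]
  refine ⟨S', fun w => ?_, fun w p hp p' hp' => ?_, fun w w' hne p hp p' hp' j hj => ?_,
    fun w w' he p => ?_⟩
  · rintro _ ⟨p, hp, rfl⟩
    cases hw : w (Fin.last n)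
    · exact ⟨p, (hAB (mk_mem_prod (hclU hp).1.1 hbB)).1.1, (hnot w hw p).symm⟩
    · exact ⟨ρ k p, (hAB (mk_mem_prod haA (hclU hp).1.2)).1.2, (hset w hw p).symm⟩
  · have h1 : dist (map w p) (map w c) < _ := mem_iInter.1 (hclU (subset_closure hp)).2 w
    have h2 : dist (map w p') (map w c) < _ := mem_iInter.1 (hclU (subset_closure hp')).2 w
    have h3 := dist_triangle_right (map w p) (map w p') (map w c)
    change dist (map w p) (map w p') ≤ _
    have : (1 / 2 : ℝ) ^ (n + 1) + (1 / 2 : ℝ) ^ (n + 1) = (1 / 2 : ℝ) ^ n := by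
      rw [pow_succ]
      ring
    linarith
  · intro heq
    change ρ j (map w p) = map w' p' at heq
    have hp := (hclU (subset_closure hp)).1
    have hp' := (hclU (subset_closure hp')).1
    have hj' : j < n + 1 := by omega
    cases hw : w (Fin.last n)
    · have hw' : w' (Fin.last n) = true := by
        rw [hw] at hne
        simpa using hne
      rw [hnot w hw, hset w' hw'] at heq
      refine (hAB (mk_mem_prod hp.1 hp'.2)).2 _ (Finset.mem_image_of_mem _
        (Finset.mem_univ (⟨j, hj'⟩, Fin.init w, Fin.init w', false))) ?_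
      simp only [cond_false, Homeomorph.trans_apply, heq, Homeomorph.symm_apply_apply]
    · have hw' : w' (Fin.last n) = false := by
        rw [hw] at hne
        simpa using hne
      rw [hset w hw, hnot w' hw'] at heq
      refine (hAB (mk_mem_prod hp'.1 hp.2)).2 _ (Finset.mem_image_of_mem _
        (Finset.mem_univ (⟨j, hj'⟩, Fin.init w, Fin.init w', true))) ?_
      simp only [cond_true]
      rw [← Homeomorph.eq_symm_apply, Homeomorph.symm_symm]
      simp only [Homeomorph.trans_apply, heq, Homeomorph.symm_apply_apply]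
  · cases hw : w (Fin.last n)
    · exact ⟨p, hnot w hw p, hnot w' (he.symm.trans hw) p⟩
    · exact ⟨ρ k p, hset w hw p, hset w' (he.symm.trans hw) p⟩

end Stages

/-- **Eventual agreement embeds** into the orbit relation of homeomorphisms of a perfect Polish
space with a dense orbit. -/
theorem exists_eZero_embedding [TopologicalSpace Y] [PolishSpace Y] (s : Setoid Y)
    (ρ : ℕ → Y ≃ₜ Y) (hρ0 : ∀ a, ρ 0 a = a) (hs : ∀ a b, s a b ↔ ∃ k, ρ k a = b)
    (hperf : ∀ a : Y, ¬IsOpen ({a} : Set Y)) (x : Y) (hx : Dense (range fun k => ρ k x)) :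
    ∃ f : (ℕ → Bool) → Y, Continuous f ∧ Function.Injective f ∧
      ∀ z z', eZero z z' ↔ s (f z) (f z') := by
  classical
  let := TopologicalSpace.upgradeIsCompletelyMetrizable Y
  have hρ : ∀ k a, s a (ρ k a) := fun k a => (hs _ _).2 ⟨k, rfl⟩
  have htrans : ∀ A B : Set Y, IsOpen A → A.Nonempty → IsOpen B → B.Nonempty →
      ∃ k, ∃ a ∈ A, ρ k a ∈ B := fun A B hA hA' hB hB' => by
    obtain ⟨i, hi⟩ := hx.exists_mem_open hA hA'
    obtain ⟨j, hj⟩ := hx.exists_mem_open hB hB'
    obtain ⟨⟨i, rfl⟩, ⟨j, rfl⟩⟩ := hi.1, hj.1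
    obtain ⟨k, hk⟩ := (hs _ _).1 (s.trans (s.symm (hρ i x)) (hρ j x))
    exact ⟨k, _, hi.2, by rw [hk]; exact hj.2⟩
  choose next hnext using fun n (S : Stage s n) => exists_step hperf hρ htrans S
  let S : ∀ n, Stage s n := fun n => Nat.rec
    ⟨Set.univ, isOpen_univ, ⟨x, trivial⟩, fun _ => Homeomorph.refl Y, fun _ a => s.refl a⟩
    next n
  have hS : ∀ n, Step ρ (S n) (S (n + 1)) := fun n => hnext n (S n)
  let P : (ℕ → Bool) → ℕ → Set Y := fun z n => (S n).map (prefixWord z n) '' (S n).U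
  have hPP : ∀ z n, P z (n + 1) ⊆ P z n := fun z n =>
    (image_mono subset_closure).trans ((hS n).1 (prefixWord z (n + 1)))
  have hPmono : ∀ z {n m}, n ≤ m → P z m ⊆ P z n := fun z n m h => by
    induction h with
    | refl => exact subset_rfl
    | step _ ih => exact (hPP z _).trans ih
  have hPdist : ∀ z n, ∀ a ∈ P z (n + 1), ∀ a' ∈ P z (n + 1), dist a a' ≤ (1 / 2 : ℝ) ^ n := by
    rintro z n _ ⟨a, ha, rfl⟩ _ ⟨a', ha', rfl⟩
    exact (hS n).2.1 _ a ha a' ha'
  choose pt hpt using fun z n => ((S n).nonempty.image ((S n).map (prefixWord z n)) :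
    (P z n).Nonempty)
  have hcau : ∀ z, CauchySeq fun n => pt z (n + 1) := fun z =>
    cauchySeq_of_le_geometric (1 / 2 : ℝ) 1 (by norm_num) fun n => by
      rw [one_mul]
      exact hPdist z n _ (hpt z (n + 1)) _ (hPP z (n + 1) (hpt z (n + 2)))
  choose f hf using fun z => cauchySeq_tendsto_of_complete (hcau z)
  have hfP : ∀ z n, f z ∈ P z n := fun z n => by
    refine (hS n).1 (prefixWord z (n + 1)) ?_
    rw [Homeomorph.image_closure]
    exact mem_closure_of_tendsto (hf z) (eventually_atTop.2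
      ⟨n, fun m hm => hPmono z (by omega) (hpt z (m + 1))⟩)
  have huniq : ∀ z a, (∀ n, a ∈ P z n) → a = f z := fun z a ha => by
    refine eq_of_dist_eq_zero (le_antisymm ?_ dist_nonneg)
    refine ge_of_tendsto' (tendsto_pow_atTop_nhds_zero_of_lt_one (r := (1 / 2 : ℝ))
      (by norm_num) (by norm_num)) fun n => hPdist z n a (ha (n + 1)) _ (hfP z (n + 1))
  have hne : ∀ z z' n, z n ≠ z' n → ∀ k ≤ n, ρ k (f z) ≠ f z' := fun z z' n hne k hk => by
    obtain ⟨a, ha, hfa⟩ := hfP z (n + 1)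
    obtain ⟨a', ha', hfa'⟩ := hfP z' (n + 1)
    rw [← hfa, ← hfa']
    exact (hS n).2.2.1 _ _ hne a ha a' ha' k hk
  refine ⟨f, ?_, fun z z' he => by_contra fun hzz' => ?_, fun z z' => ⟨?_, fun h => ?_⟩⟩
  · refine continuous_iff_continuousAt.2 fun z => Metric.tendsto_nhds.2 fun ε hε => ?_
    obtain ⟨n, hn⟩ := exists_pow_lt_of_lt_one hε (by norm_num : (1 / 2 : ℝ) < 1)
    filter_upwards [(PiNat.isOpen_cylinder (fun _ : ℕ => Bool) z (n + 1)).mem_nhds
      (PiNat.self_mem_cylinder z (n + 1))] with z' hz'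
    have e : P z' (n + 1) = P z (n + 1) := by
      simp only [P, show prefixWord z' (n + 1) = prefixWord z (n + 1) from
        funext fun i => hz' i i.2]
    exact (hPdist z n _ (e ▸ hfP z' (n + 1)) _ (hfP z (n + 1))).trans_lt hn
  · obtain ⟨n, hn⟩ := Function.ne_iff.1 hzz'
    exact hne z z' n hn 0 (Nat.zero_le n) (by rw [hρ0, he])
  · rintro ⟨n, hn⟩
    obtain ⟨b, hb, hfb⟩ := hfP z' n
    have hcoh : ∀ m, n ≤ m → ∀ a, ∃ c, (S m).map (prefixWord z m) a = (S n).map (prefixWord z n) c ∧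
        (S m).map (prefixWord z' m) a = (S n).map (prefixWord z' n) c := by
      intro m hm
      induction m, hm using Nat.le_induction with
      | base => exact fun a => ⟨a, rfl, rfl⟩
      | succ m hm ih =>
        intro a
        obtain ⟨c, h1, h2⟩ := (hS m).2.2.2 (prefixWord z (m + 1)) (prefixWord z' (m + 1))
          (hn m hm) a
        obtain ⟨d, h3, h4⟩ := ih c
        exact ⟨d, h1.trans h3, h2.trans h4⟩
    have hbP : ∀ m, (S n).map (prefixWord z n) b ∈ P z m := by
      have key : ∀ m, n ≤ m → (S n).map (prefixWord z n) b ∈ P z m := fun m hm => by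
        obtain ⟨a, ha, hfa⟩ := hfP z' m
        obtain ⟨c, h1, h2⟩ := hcoh m hm a
        have hcb : c = b := ((S n).map (prefixWord z' n)).injective
          (h2.symm.trans (hfa.trans hfb.symm))
        exact ⟨a, ha, hcb ▸ h1⟩
      exact fun m => (le_total n m).elim (key m) fun h => hPmono z h (key n le_rfl)
    rw [← huniq z _ hbP, ← hfb]
    exact s.trans (s.symm ((S n).orbit _ b)) ((S n).orbit _ b)
  · obtain ⟨k, hk⟩ := (hs _ _).1 h
    exact ⟨k, fun i hi => by_contra fun hi' => hne z z' i hi' k hi hk⟩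

end FA.GlimmEffros
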